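import Fermat.Agent.DS1.Grp
import Mathlib.RingTheory.RootsOfUnity.AlgebraicallyClosed

/-!
# The field of modular functions on `±Γ₁(q) ∩ Γ₀(N)`
-/

set_option autoImplicit false
set_option linter.unusedSectionVars false
set_option linter.style.haveILetI false

noncomputable section

open UpperHalfPlane Function ModularCurve Filter ModularForm AlgebraicCurve WithZero
  CongruenceSubgroup IntermediateField
open scoped Manifold MatrixGroups Topology ModularForm

namespace Fermat.Agent.DS1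

open Fermat.Agent.X0Places Fermat.Agent.TorsCmp Fermat.Agent.FunField Fermat.Agent.LGU
  Fermat.Agent.LG

section Chars

variable {L : Type*} [Field L] {q : ℕ} [NeZero q]

theorem hasEnough [CharZero L] [IsAlgClosed L] :
    HasEnoughRootsOfUnity L (Monoid.exponent (ZMod q)ˣ) := by
  haveI : NeZero ((Monoid.exponent (ZMod q)ˣ : ℕ) : L) :=
    ⟨Nat.cast_ne_zero.2 Monoid.exponent_ne_zero_of_finite⟩
  infer_instance

/-- complex characters come from `L` -/
theorem exists_ringHomComp [CharZero L] [IsAlgClosed L] (ι : L →+* ℂ)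
    (χ : DirichletCharacter ℂ q) : ∃ ω : DirichletCharacter L q, ω.ringHomComp ι = χ := by
  classical
  haveI := hasEnough (L := L) (q := q)
  haveI := hasEnough (L := ℂ) (q := q)
  have h1 : Nat.card (DirichletCharacter L q) = Nat.card (DirichletCharacter ℂ q) := by
    rw [DirichletCharacter.card_eq_totient_of_hasEnoughRootsOfUnity,
      DirichletCharacter.card_eq_totient_of_hasEnoughRootsOfUnity]
  have h2 : Injective (fun ω : DirichletCharacter L q => ω.ringHomComp ι) :=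
    MulChar.injective_ringHomComp ι.injective
  have h3 : Bijective (fun ω : DirichletCharacter L q => ω.ringHomComp ι) := by
    rw [Fintype.bijective_iff_injective_and_card]
    refine ⟨h2, ?_⟩
    rw [← Nat.card_eq_fintype_card, ← Nat.card_eq_fintype_card, h1]
  exact h3.2 χ

open Classical in
/-- the even characters -/
def evn (L : Type*) [Field L] (q : ℕ) [NeZero q] : Finset (DirichletCharacter L q) :=
  Finset.univ.filter fun ω => ω (-1) = 1

theorem mem_evn {ω : DirichletCharacter L q} : ω ∈ evn L q ↔ ω (-1) = 1 := by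
  classical
  simp [evn]

theorem neg_one_cases (ω : DirichletCharacter L q) : ω (-1) = 1 ∨ ω (-1) = -1 := by
  have h1 : ω (-1) ^ 2 = 1 := by
    rw [← map_pow, neg_one_sq, map_one]
  have h2 : (ω (-1) - 1) * (ω (-1) + 1) = 0 := by linear_combination h1
  rcases mul_eq_zero.1 h2 with h | h
  · exact Or.inl (sub_eq_zero.1 h)
  · exact Or.inr (eq_neg_of_add_eq_zero_left h)

theorem two_mul_sum_evn [CharZero L] [IsAlgClosed L] (a : ZMod q) :
    2 * ∑ ω ∈ evn L q, ω a = (if a = 1 then (q.totient : L) else 0) +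
      (if -a = 1 then (q.totient : L) else 0) := by
  classical
  haveI := hasEnough (L := L) (q := q)
  have h1 := DirichletCharacter.sum_characters_eq L (n := q) a
  have h2 := DirichletCharacter.sum_characters_eq L (n := q) (-a)
  rw [← h1, ← h2, ← Finset.sum_add_distrib, evn, Finset.sum_filter, Finset.mul_sum]
  refine Finset.sum_congr rfl fun ω _ => ?_
  have h3 : ω (-a) = ω (-1) * ω a := by rw [← map_mul, neg_one_mul]
  rw [h3]
  rcases neg_one_cases ω with h | h
  · rw [if_pos h, h]; ring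
  · rw [if_neg, h]
    · ring
    · rw [h]
      intro h4
      have : (2 : L) = 0 := by linear_combination -h4
      exact two_ne_zero this

theorem two_mul_card_evn [CharZero L] [IsAlgClosed L] (hq : 2 < q) :
    2 * (evn L q).card = q.totient := by
  have h1 := two_mul_sum_evn (L := L) (q := q) 1
  have h2 : (-1 : ZMod q) ≠ 1 := by
    haveI : Fact (2 < q) := ⟨hq⟩
    exact ZMod.neg_one_ne_one
  rw [if_pos rfl, if_neg h2, add_zero] at h1
  have h3 : ∑ ω ∈ evn L q, ω 1 = ((evn L q).card : L) := by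
    rw [Finset.sum_congr rfl fun ω _ => map_one ω, Finset.sum_const, nsmul_eq_mul, mul_one]
  rw [h3] at h1
  exact_mod_cast h1

theorem card_evn_pos (L : Type*) [Field L] (q : ℕ) [NeZero q] : 0 < (evn L q).card := by
  rw [Finset.card_pos]
  exact ⟨1, mem_evn.2 (MulChar.one_apply (by simp))⟩

/-- even characters separate modulo `±1` -/
theorem mem_pm_of_evn [CharZero L] [IsAlgClosed L] {d : (ZMod q)ˣ}
    (h : ∀ ω : DirichletCharacter L q, ω (-1) = 1 → ω (d : ZMod q) = 1) : d ∈ pm q := by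
  rw [mem_pm]
  by_contra hcon
  rw [not_or] at hcon
  have h1 := two_mul_sum_evn (L := L) (q := q) (d : ZMod q)
  have h2 : ((d : (ZMod q)ˣ) : ZMod q) ≠ 1 := fun h => hcon.1 (Units.ext h)
  have h3 : (-(d : ZMod q)) ≠ 1 := fun h => hcon.2 (Units.ext (by
    rw [Units.val_neg, Units.val_one, ← h, neg_neg]))
  rw [if_neg h2, if_neg h3, add_zero, Finset.sum_congr rfl fun ω hω => h ω (mem_evn.1 hω),
    Finset.sum_const, nsmul_eq_mul, mul_one] at h1
  have h4 := card_evn_pos L q
  rcases mul_eq_zero.1 h1 with h5 | h5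
  · exact two_ne_zero h5
  · exact h4.ne' (by exact_mod_cast h5)

end Chars

variable {L : Type*} [Field L] (ι : L →+* ℂ) {N : ℕ} [NeZero N] {q : ℕ} [NeZero q]
  (hqN : q ∣ N) (hq : 1 < q)

include hq in
/-- the function `U` -/
theorem exists_U1 {ω : DirichletCharacter L q} (hω : ω (-1) = 1) :
    ∃ U : ℍ → ℂ, IsAnG (G1 N q) N U ∧ IsAnG (Gamma N) N U ∧
    HasLaurent 1 U (coeffMap ι (uL ω)) ∧
    (∀ g : Gamma0 N, ∀ τ, U ((g : SL(2, ℤ)) • τ) = ι (ω (delq hqN g : (ZMod q)ˣ)) * U τ) ∧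
    ∃ z, U z ≠ 0 := by
  obtain ⟨U, h1, h2, h3, h4, h5⟩ := exists_U ι hq ω hω
  have h6 : ∀ g : Gamma0 N, ∀ τ, U ((g : SL(2, ℤ)) • τ) = ι (ω (delq hqN g : (ZMod q)ˣ)) * U τ :=
    fun g τ => h3 _ (gamma0_le_gamma0 hqN g.2) τ
  have h7 : ∀ γ ∈ G1 N q, ∀ τ, U (γ • τ) = U τ := by
    intro γ hγ τ
    obtain ⟨h8, h9⟩ := (mem_G1_iff hqN).1 hγ
    rw [h6 ⟨γ, h8⟩ τ]
    rcases mem_pm.1 h9 with h | h
    · rw [h, Units.val_one, map_one, map_one, one_mul]
    · rw [h, Units.val_neg, Units.val_one, hω, map_one, one_mul]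
  exact ⟨U, isAnG_of_width hqN h1 h4 h7,
    isAnG_of_width hqN h1 h4 fun γ hγ => h7 γ (gamma_le_G1 hqN hγ), h2, h6, h5⟩

include hqN hq in
theorem uL_mem_anR1 {ω : DirichletCharacter L q} (hω : ω (-1) = 1) :
    uL ω ∈ AnR ι (G1 N q) N := by
  obtain ⟨U, h1, -, h2, -, -⟩ := exists_U1 ι hqN hq hω
  exact ⟨U, h1, h2⟩

variable [Algebra ℚ L]

variable (L N q) in
/-- the field generated by `FF` and the `u ω` -/
def S1 : IntermediateField L (LaurentSeries L) :=
  adjoin L ((FF L N : Set (LaurentSeries L)) ∪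
    {x | ∃ ω : DirichletCharacter L q, ω (-1) = 1 ∧ x = uL ω})

include hqN hq in
theorem S1_le : S1 L N q ≤ FG ι (G1 N q) N := by
  rw [S1, adjoin_le_iff]
  rintro x (hx | ⟨ω, hω, rfl⟩)
  · exact FG_mono G1_le_gamma0 (FF_le_FG ι N hx)
  · exact anR_le_FG (uL_mem_anR1 ι hqN hq hω)

include hqN hq in
theorem FG_id_le_genF1 [IsAlgClosed L] : FG (RingHom.id ℂ) (G1 N q) N ≤ genF ι (S1 L N q) := by
  classical
  haveI : CharZero L := algebraRat.charZero L
  choose! U hU1 hU2 hU3 hU4 hU5 using fun (ω : DirichletCharacter L q) (hω : ω (-1) = 1) =>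
    exists_U1 ι hqN hq hω
  choose om hom using exists_ringHomComp (q := q) ι
  have hev : ∀ χ : DirichletCharacter ℂ q, χ (-1) = 1 → om χ (-1) = 1 := by
    intro χ hχ
    apply ι.injective
    rw [map_one, ← MulChar.ringHomComp_apply, hom, hχ]
  have hsub : adjoin ℂ ((FF ℂ N : Set (LaurentSeries ℂ)) ∪
      {x | ∃ χ : DirichletCharacter ℂ q, χ (-1) = 1 ∧ x = coeffMap ι (uL (om χ))}) ≤
      genF ι (S1 L N q) := by
    rw [adjoin_le_iff]
    rintro x (hx | ⟨χ, hχ, rfl⟩)
    · refine genF_mono ι ?_ (FF_le_genF ι N hx)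
      rw [S1]
      exact fun y hy => subset_adjoin _ _ (Or.inl hy)
    · exact coeffMap_mem_genF ι (subset_adjoin _ _ (Or.inr ⟨_, hev χ hχ, rfl⟩))
  have key : ∀ a ∈ AnR (RingHom.id ℂ) (G1 N q) N, a ∈ genF ι (S1 L N q) := by
    rintro a ⟨f, hf, hf'⟩
    rw [coeffMap_id] at hf'
    apply hsub
    refine mem_adjoin_of_isAnG' hqN hf (U := fun χ => U (om χ)) (fun χ hχ => hU2 _ (hev χ hχ))
      (fun χ hχ g τ => ?_) (fun χ hχ => hU3 _ (hev χ hχ)) (fun χ hχ => ?_) hf'
    · rw [hU4 _ (hev χ hχ) g τ, ← MulChar.ringHomComp_apply, hom]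
    · rw [coeffMap_uL]
      exact uL_ne_zero _
  rintro x ⟨a, ha, b, hb, hb0, h⟩
  rw [eq_div_of_mul_eq hb0 h]
  exact div_mem (key a ha) (key b hb)

include hqN hq in
/-- **The field of modular functions on `G1 N q` is generated by the `u ω`.** -/
theorem FG_G1 [IsAlgClosed L] : FG ι (G1 N q) N = S1 L N q :=
  FG_eq_of_gen ι _ N (S1_le ι hqN hq) (FG_id_le_genF1 ι hqN hq)

include hqN hq in
theorem FG_G1_gen [IsAlgClosed L] :
    FG (RingHom.id ℂ) (G1 N q) N ≤ genF ι (FG ι (G1 N q) N) :=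
  FG_le_genF_of_gen ι _ N (S1_le ι hqN hq) (FG_id_le_genF1 ι hqN hq)

include hqN hq in
theorem sep_G1 [IsAlgClosed L] (g : SL(2, ℤ))
    (h : ∀ x : FG ι (G1 N q) N, compMer g (toM ι (G1 N q) N x) = toM ι (G1 N q) N x) :
    g ∈ G1 N q := by
  haveI : CharZero L := algebraRat.charZero L
  have h1 : g ∈ Gamma0 N := by
    apply sep_gamma0 ι N
    intro x
    have h2 := h (inclFG G1_le_gamma0 x)
    rwa [toM_inclFG] at h2
  rw [mem_G1_iff hqN]
  refine ⟨h1, mem_pm_of_evn (L := L) fun ω hω => ?_⟩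
  obtain ⟨U, hU1, hU2, hU3, hU4, z, hz⟩ := exists_U1 ι hqN hq hω
  let u : FG ι (G1 N q) N := ⟨uL ω, anR_le_FG (uL_mem_anR1 ι hqN hq hω)⟩
  have h2 : toM ι (G1 N q) N u = algebraMap Holo Mer ⟨U, hU1.hol⟩ :=
    toM_of_mem ⟨U, hU1.hol⟩ hU1 hU3
  have h3 := h u
  rw [h2, compMer_algebraMap] at h3
  have h4 := congrArg Subtype.val (IsFractionRing.injective Holo Mer h3)
  have h5 : U (g • z) = U z := congrFun h4 z
  rw [hU4 ⟨g, h1⟩ z] at h5
  have h6 : ι (ω (delq hqN ⟨g, h1⟩ : (ZMod q)ˣ)) = 1 := by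
    have h7 : (ι (ω (delq hqN ⟨g, h1⟩ : (ZMod q)ˣ)) - 1) * U z = 0 := by rw [sub_mul, h5]; ring
    exact sub_eq_zero.1 ((mul_eq_zero.1 h7).resolve_right hz)
  exact ι.injective (h6.trans (map_one ι).symm)

/-! ### the degree -/

/-- invariant products are in `FF` -/
theorem mem_FF_of_inv {x : LaurentSeries L} {F : ℍ → ℂ} (hF : IsAnG (Gamma N) N F)
    (hFx : HasLaurent 1 F (coeffMap ι x)) (hinv : ∀ g : Gamma0 N, ∀ τ, F ((g : SL(2, ℤ)) • τ) = F τ) :
    x ∈ FF L N := by
  rw [← FG_gamma0 ι N]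
  exact anR_le_FG ⟨F, ⟨hF.hol, hF.exp, fun γ hγ τ => hinv ⟨γ, hγ⟩ τ⟩, hFx⟩

include ι hqN hq in
theorem uL_mul_mem {ω ω' ω'' : DirichletCharacter L q} (hω : ω (-1) = 1) (hω' : ω' (-1) = 1)
    (hω'' : ω'' (-1) = 1) (h : ω * ω' * ω'' = 1) : uL ω * uL ω' * uL ω'' ∈ FF L N := by
  obtain ⟨U, -, h1, h2, h3, -⟩ := exists_U1 ι hqN hq hω
  obtain ⟨U', -, h1', h2', h3', -⟩ := exists_U1 ι hqN hq hω'
  obtain ⟨U'', -, h1'', h2'', h3'', -⟩ := exists_U1 ι hqN hq hω''
  refine mem_FF_of_inv ι ((h1.mul h1').mul h1'') ?_ fun g τ => ?_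
  · rw [map_mul, map_mul]
    exact (h2.mul h2').mul h2''
  · have h4 : ω (delq hqN g : (ZMod q)ˣ) * ω' (delq hqN g : (ZMod q)ˣ) *
        ω'' (delq hqN g : (ZMod q)ˣ) = 1 := by
      rw [← MulChar.mul_apply, ← MulChar.mul_apply, h, MulChar.one_apply_coe]
    have h5 := congrArg ι h4
    rw [map_mul, map_mul, map_one] at h5
    simp only [Pi.mul_apply]
    rw [h3 g τ, h3' g τ, h3'' g τ]
    linear_combination (U τ * U' τ * U'' τ) * h5

theorem inv_even {ω : DirichletCharacter L q} (hω : ω (-1) = 1) : ω⁻¹ (-1) = 1 := by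
  have h1 : ω⁻¹ (-1) * ω (-1) = 1 := by
    rw [← MulChar.mul_apply, inv_mul_cancel, MulChar.one_apply (by simp)]
  rwa [hω, mul_one] at h1

theorem mul_even {ω ω' : DirichletCharacter L q} (hω : ω (-1) = 1) (hω' : ω' (-1) = 1) :
    (ω * ω') (-1) = 1 := by rw [MulChar.mul_apply, hω, hω', one_mul]

theorem one_even : (1 : DirichletCharacter L q) (-1) = 1 := MulChar.one_apply (by simp)

include ι hqN hq in
theorem uL_one_mem : uL (1 : DirichletCharacter L q) ∈ FF L N := by
  obtain ⟨U, -, h1, h2, h3, -⟩ := exists_U1 ι hqN hq (one_even (L := L) (q := q))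
  refine mem_FF_of_inv ι h1 h2 fun g τ => ?_
  rw [h3 g τ, MulChar.one_apply_coe, map_one, one_mul]

theorem FF_le_S1 : FF L N ≤ S1 L N q := fun _ hx => subset_adjoin _ _ (Or.inl hx)

variable (L q) in
/-- the set of the `u ω` -/
def uSet : Set (LaurentSeries L) := {x | ∃ ω : DirichletCharacter L q, ω (-1) = 1 ∧ x = uL ω}

theorem extendScalars_S1 : extendScalars (FF_le_S1 (L := L) (N := N) (q := q)) =
    adjoin (FF L N) (uSet L q) := by
  have h1 : extendScalars (FF_le_S1 (L := L) (N := N) (q := q)) =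
      adjoin (FF L N) ((FF L N : Set (LaurentSeries L)) ∪ uSet L q) := extendScalars_adjoin _
  rw [h1]
  apply le_antisymm
  · rw [adjoin_le_iff]
    rintro x (hx | hx)
    · exact (adjoin (FF L N) (uSet L q)).algebraMap_mem ⟨x, hx⟩
    · exact subset_adjoin _ _ hx
  · exact adjoin.mono _ _ _ Set.subset_union_right

include ι hqN hq in
/-- products of the `u ω` -/
theorem exists_smul_uL {x : LaurentSeries L} (hx : x ∈ Submonoid.closure (uSet L q)) :
    ∃ (c : FF L N) (ω : DirichletCharacter L q), ω (-1) = 1 ∧ x = (c : LaurentSeries L) * uL ω := by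
  induction hx using Submonoid.closure_induction with
  | mem x hx =>
    obtain ⟨ω, hω, rfl⟩ := hx
    exact ⟨1, ω, hω, by rw [OneMemClass.coe_one, one_mul]⟩
  | one =>
    refine ⟨⟨uL (1 : DirichletCharacter L q), uL_one_mem ι hqN hq⟩⁻¹, 1, one_even, ?_⟩
    rw [IntermediateField.coe_inv, inv_mul_cancel₀ (uL_ne_zero _)]
  | mul x y _ _ hx hy =>
    obtain ⟨c, ω, hω, rfl⟩ := hx
    obtain ⟨c', ω', hω', rfl⟩ := hy
    have h1 := uL_mul_mem ι hqN hq (N := N) hω hω' (inv_even (mul_even hω hω')) (mul_inv_cancel _)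
    have h2 := uL_mul_mem ι hqN hq (N := N) (mul_even hω hω') (one_even (L := L) (q := q))
      (inv_even (mul_even hω hω')) (by rw [mul_one, mul_inv_cancel])
    have h3 : uL (ω * ω') * uL (ω * ω')⁻¹ ∈ FF L N := by
      have h4 := uL_one_mem ι hqN hq (N := N) (L := L)
      have h5 := (FF L N).div_mem h2 h4
      have h60 := uL_ne_zero (1 : DirichletCharacter L q)
      have h6 : uL (ω * ω') * uL (1 : DirichletCharacter L q) * uL (ω * ω')⁻¹ /
          uL (1 : DirichletCharacter L q) = uL (ω * ω') * uL (ω * ω')⁻¹ := by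
        field_simp
      rwa [h6] at h5
    have h7 := (FF L N).div_mem h1 h3
    refine ⟨c * c' * ⟨_, h7⟩, ω * ω', mul_even hω hω', ?_⟩
    rw [MulMemClass.coe_mul, MulMemClass.coe_mul]
    have e1 := uL_ne_zero (ω * ω')
    have e2 := uL_ne_zero (ω * ω')⁻¹
    simp only
    field_simp

include ι hqN hq in
theorem relfinrank_S1 [IsAlgClosed L] : 0 < relfinrank (FF L N) (S1 L N q) ∧
    relfinrank (FF L N) (S1 L N q) ≤ (evn L q).card := by
  classical
  set V : Submodule (FF L N) (LaurentSeries L) :=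
    Submodule.span (FF L N) (((evn L q).image uL : Finset (LaurentSeries L)) :
      Set (LaurentSeries L)) with hV
  have hVfin : Module.Finite (FF L N) V := Module.Finite.span_finset _ _
  have hVle : Module.finrank (FF L N) V ≤ (evn L q).card :=
    (finrank_span_finset_le_card _).trans Finset.card_image_le
  have hle : Subalgebra.toSubmodule (Algebra.adjoin (FF L N) (uSet L q)) ≤ V := by
    rw [Algebra.adjoin_eq_span, Submodule.span_le]
    intro x hx
    obtain ⟨c, ω, hω, rfl⟩ := exists_smul_uL ι hqN hq (N := N) hx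
    have h1 : (c : LaurentSeries L) * uL ω = c • uL ω := rfl
    rw [h1]
    exact V.smul_mem c (Submodule.subset_span (by
      rw [Finset.coe_image]
      exact ⟨ω, mem_evn.2 hω, rfl⟩))
  have hfin : Module.Finite (FF L N) (Algebra.adjoin (FF L N) (uSet L q)) :=
    Submodule.finiteDimensional_of_le hle
  have halg : ∀ x ∈ uSet L q, IsAlgebraic (FF L N) x := by
    intro x hx
    have h1 : IsIntegral (FF L N) (⟨x, Algebra.subset_adjoin hx⟩ :
      Algebra.adjoin (FF L N) (uSet L q)) := IsIntegral.of_finite _ _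
    exact (h1.map (Algebra.adjoin (FF L N) (uSet L q)).val).isAlgebraic
  have h2 : (adjoin (FF L N) (uSet L q)).toSubalgebra = Algebra.adjoin (FF L N) (uSet L q) :=
    adjoin_toSubalgebra_of_isAlgebraic halg
  have h3 : Module.finrank (FF L N) (adjoin (FF L N) (uSet L q)) =
      Module.finrank (FF L N) (Algebra.adjoin (FF L N) (uSet L q)) := by
    rw [← h2]
    rfl
  rw [relfinrank_eq_finrank_of_le FF_le_S1, extendScalars_S1, h3]
  refine ⟨Module.finrank_pos, ?_⟩
  exact (Submodule.finrank_mono hle).trans hVle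

end Fermat.Agent.DS1
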