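import Fermat.Agent.DS1.Main
import Fermat.Agent.LG.MFGal

/-!
# Galois action and diamond operators for `±Γ₁(q) ∩ Γ₀(N)`
-/

set_option autoImplicit false
set_option linter.unusedSectionVars false
set_option linter.style.haveILetI false

noncomputable section

open UpperHalfPlane Function ModularCurve Filter ModularForm AlgebraicCurve WithZero
  CongruenceSubgroup IntermediateField
open scoped Manifold MatrixGroups Topology ModularForm

namespace Fermat.Agent.DS1

open Fermat.Agent.X0Places Fermat.Agent.TorsCmp Fermat.Agent.FunField Fermat.Agent.LGU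
open Fermat.Agent.Igusa Fermat.Agent.LGRes Fermat.Agent.LG

variable {L : Type*} [Field L] [Algebra ℚ L] [IsAlgClosed L] (ι : L →+* ℂ) {N : ℕ} [NeZero N]
  {q : ℕ} [NeZero q] (hqN : q ∣ N) (hq : 1 < q)

/-- generators of `FG ι (G1 N q) N` -/
abbrev gens (L : Type*) [Field L] [Algebra ℚ L] (N q : ℕ) [NeZero q] : Set (LaurentSeries L) :=
  (FF L N : Set (LaurentSeries L)) ∪ {x | ∃ ω : DirichletCharacter L q, ω (-1) = 1 ∧ x = uL ω}

include hqN hq in
theorem mem_FG_G1_iff {x : LaurentSeries L} : x ∈ FG ι (G1 N q) N ↔ x ∈ adjoin L (gens L N q) := by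
  rw [FG_G1 ι hqN hq, S1]

theorem fixF_S1 [Algebra.IsAlgebraic ℚ L] {x : LaurentSeries L} (hx : x ∈ S1 L N q) :
    FixF x := by
  rw [S1] at hx
  refine fixF_of_adjoin ?_ hx
  rintro x (hx | ⟨ω, hω, rfl⟩)
  · exact fixF_FF hx
  · exact fixF_uL ω

include hqN hq in
/-- `GalSt` for `G1 N q` -/
theorem galSt_G1 [Algebra.IsAlgebraic ℚ L] : GalSt ι (G1 N q) N where
  map_mem σ x hx := by
    rw [mem_FG_G1_iff ι hqN hq] at hx
    have h1 : (adjoin L (gens L N q)).toSubfield ≤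
        (FG ι (G1 N q) N).toSubfield.comap (coeffMap (σ : L →+* L)) := by
      rw [adjoin_toSubfield, Subfield.closure_le]
      rintro y (⟨a, rfl⟩ | (hy | ⟨ω, hω, rfl⟩))
      · show coeffMap (σ : L →+* L) _ ∈ FG ι (G1 N q) N
        rw [coeffMap_algebraMap]
        exact (FG ι (G1 N q) N).algebraMap_mem _
      · show coeffMap (σ : L →+* L) _ ∈ FG ι (G1 N q) N
        exact FG_mono G1_le_gamma0 (FF_le_FG ι N (coeffMap_mem_laurentBaseChange σ hy))
      · show coeffMap (σ : L →+* L) _ ∈ FG ι (G1 N q) N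
        rw [coeffMap_uL]
        refine anR_le_FG (uL_mem_anR1 ι hqN hq ?_)
        rw [MulChar.ringHomComp_apply, hω, map_one]
    exact h1 hx
  fin x hx := by
    rw [FG_G1 ι hqN hq] at hx
    exact fixF_S1 hx

theorem isTameField_adjoin_gens {K : Type*} [Field K] {S₀ : IntermediateField K (LaurentSeries K)}
    (h0 : IsTameField S₀) {T : Set (LaurentSeries K)} (hT : ∀ x ∈ T, x ∈ tameQ K)
    (hfin : T.Finite) : IsTameField (adjoin K ((S₀ : Set (LaurentSeries K)) ∪ T)) := by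
  induction T, hfin using Set.Finite.induction_on with
  | empty =>
    rw [Set.union_empty, adjoin_self]
    exact h0
  | @insert a T _ _ ih =>
    have h1 := ih fun x hx => hT x (Set.mem_insert_of_mem _ hx)
    have h2 := isTameField_adjoin_union h1 (hT a (Set.mem_insert _ _))
    have h3 : adjoin K ((adjoin K ((S₀ : Set (LaurentSeries K)) ∪ T) : Set (LaurentSeries K)) ∪
        {a}) = adjoin K ((S₀ : Set (LaurentSeries K)) ∪ insert a T) := by
      apply le_antisymm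
      · rw [adjoin_le_iff]
        rintro x (hx | rfl)
        · refine adjoin.mono _ _ _ ?_ hx
          exact Set.union_subset_union_right _ (Set.subset_insert _ _)
        · exact subset_adjoin _ _ (Or.inr (Set.mem_insert _ _))
      · rw [adjoin_le_iff]
        rintro x (hx | (rfl | hx))
        · exact subset_adjoin _ _ (Or.inl (subset_adjoin _ _ (Or.inl hx)))
        · exact subset_adjoin _ _ (Or.inr rfl)
        · exact subset_adjoin _ _ (Or.inl (subset_adjoin _ _ (Or.inr hx)))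
    rw [← h3]
    exact h2

include hqN hq in
theorem isTameField_G1 [CharZero L] : IsTameField (FG ι (G1 N q) N) := by
  rw [FG_G1 ι hqN hq, S1]
  refine isTameField_adjoin_gens (Fermat.Agent.HeckeRed.isTameField_bar N) ?_ ?_
  · rintro x ⟨ω, hω, rfl⟩
    exact mem_tameQ_of_tame (uL_mem_tame ω)
  · have h1 : {x | ∃ ω : DirichletCharacter L q, ω (-1) = 1 ∧ x = uL ω} ⊆
        Set.range (fun ω : DirichletCharacter L q => uL ω) := by
      rintro x ⟨ω, -, rfl⟩
      exact ⟨ω, rfl⟩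
    exact (Set.finite_range _).subset h1

/-! ### diamond operators -/

include hqN hq in
theorem fg_eq_of_gens1 {R : Type*} [Field R] (φ ψ : FG ι (G1 N q) N →+* R)
    (h1 : ∀ c : L, φ (algebraMap L (FG ι (G1 N q) N) c) = ψ (algebraMap L (FG ι (G1 N q) N) c))
    (h2 : ∀ x : FG ι (G1 N q) N, (x : LaurentSeries L) ∈ FF L N → φ x = ψ x)
    (h3 : ∀ (x : FG ι (G1 N q) N) (ω : DirichletCharacter L q), ω (-1) = 1 →
      (x : LaurentSeries L) = uL ω → φ x = ψ x) : φ = ψ := by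
  have hle : (adjoin L (gens L N q)).toSubfield ≤
      (φ.eqLocusField ψ).map (FG ι (G1 N q) N).toSubfield.subtype := by
    rw [adjoin_toSubfield, Subfield.closure_le]
    rintro y (⟨a, rfl⟩ | hy)
    · exact ⟨algebraMap L (FG ι (G1 N q) N) a, h1 a, rfl⟩
    · have hy' : y ∈ FG ι (G1 N q) N := (mem_FG_G1_iff ι hqN hq).2 (subset_adjoin _ _ hy)
      refine ⟨⟨y, hy'⟩, ?_, rfl⟩
      rcases hy with hy | ⟨ω, hω, hy⟩
      · exact h2 ⟨y, hy'⟩ hy
      · exact h3 ⟨y, hy'⟩ ω hω hy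
  ext x
  have hx : (x : LaurentSeries L) ∈ adjoin L (gens L N q) := (mem_FG_G1_iff ι hqN hq).1 x.2
  obtain ⟨z, hz, hzx⟩ := hle hx
  have h4 : z = x := Subtype.ext hzx
  rw [← h4]
  exact hz

include hq in
/-- translate of `u` -/
theorem compMer_uL1 {σ : SL(2, ℤ)} (hσ : σ ∈ Gamma0 N) {x : FG ι (G1 N q) N}
    {ω : DirichletCharacter L q} (hω : ω (-1) = 1) (hx : (x : LaurentSeries L) = uL ω) :
    compMer σ (toM ι (G1 N q) N x) =
      toM ι (G1 N q) N (algebraMap L (FG ι (G1 N q) N) (ω (delq hqN ⟨σ, hσ⟩ : (ZMod q)ˣ)) * x) := by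
  obtain ⟨U, hU1, hU2, hU3, hU4, -⟩ := exists_U1 ι hqN hq hω
  have h1 : toM ι (G1 N q) N x = algebraMap Holo Mer ⟨U, hU1.hol⟩ := by
    apply toM_of_mem _ hU1
    rw [hx]
    exact hU3
  rw [map_mul, toM_algebraMap, h1, compMer_algebraMap, ← map_mul]
  congr 1
  apply Subtype.ext
  funext τ
  exact hU4 ⟨σ, hσ⟩ τ

theorem compMer_of_mem_FF1 {σ : SL(2, ℤ)} (hσ : σ ∈ Gamma0 N) (x : FG ι (G1 N q) N)
    (hx : (x : LaurentSeries L) ∈ FF L N) :
    compMer σ (toM ι (G1 N q) N x) = toM ι (G1 N q) N x := by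
  have hx' : (x : LaurentSeries L) ∈ FG ι (Gamma0 N) N := FF_le_FG ι N hx
  have h1 : inclFG (G1_le_gamma0 (N := N) (q := q)) (⟨x, hx'⟩ : FG ι (Gamma0 N) N) = x :=
    Subtype.ext rfl
  have h2 := toM_inclFG (G1_le_gamma0 (N := N) (q := q)) (⟨x, hx'⟩ : FG ι (Gamma0 N) N)
  rw [h1] at h2
  rw [h2]
  exact compMer_toM hσ _

include hqN hq in
theorem compMer_mem_range1 {σ : SL(2, ℤ)} (hσ : σ ∈ Gamma0 N) (f : FG ι (G1 N q) N) :
    compMer σ (toM ι (G1 N q) N f) ∈ (toM ι (G1 N q) N).fieldRange := by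
  have hle : (adjoin L (gens L N q)).toSubfield ≤
      ((toM ι (G1 N q) N).fieldRange.comap ((compMer σ).comp (toM ι (G1 N q) N))).map
        (FG ι (G1 N q) N).toSubfield.subtype := by
    rw [adjoin_toSubfield, Subfield.closure_le]
    rintro y (⟨a, rfl⟩ | hy)
    · refine ⟨algebraMap L (FG ι (G1 N q) N) a, ?_, rfl⟩
      show compMer σ (toM ι (G1 N q) N (algebraMap L (FG ι (G1 N q) N) a)) ∈
        (toM ι (G1 N q) N).fieldRange
      rw [toM_algebraMap, compMer_algebraMap, compHolo_const, ← toM_algebraMap]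
      exact ⟨_, rfl⟩
    · have hy' : y ∈ FG ι (G1 N q) N := (mem_FG_G1_iff ι hqN hq).2 (subset_adjoin _ _ hy)
      refine ⟨⟨y, hy'⟩, ?_, rfl⟩
      show compMer σ (toM ι (G1 N q) N _) ∈ (toM ι (G1 N q) N).fieldRange
      rcases hy with hy | ⟨ω, hω, hy⟩
      · rw [compMer_of_mem_FF1 ι hσ ⟨y, hy'⟩ hy]
        exact ⟨_, rfl⟩
      · rw [compMer_uL1 ι hqN hq hσ hω (x := ⟨y, hy'⟩) hy]
        exact ⟨_, rfl⟩
  have hx : (f : LaurentSeries L) ∈ adjoin L (gens L N q) := (mem_FG_G1_iff ι hqN hq).1 f.2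
  obtain ⟨z, hz, hzx⟩ := hle hx
  have h4 : z = f := Subtype.ext hzx
  rw [← h4]
  exact hz

section dia

variable {σ : SL(2, ℤ)} (hσ : σ ∈ Gamma0 N) {D : FG ι (G1 N q) N →+* FG ι (G1 N q) N}
  (hD : ∀ f, toM ι (G1 N q) N (D f) = compMer σ (toM ι (G1 N q) N f))

include hD in
theorem dia_algebraMap1 (c : L) :
    D (algebraMap L (FG ι (G1 N q) N) c) = algebraMap L (FG ι (G1 N q) N) c := by
  apply (toM ι (G1 N q) N).injective
  rw [hD, toM_algebraMap, compMer_algebraMap, compHolo_const]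

include hσ hD in
theorem dia_FF1 (x : FG ι (G1 N q) N) (hx : (x : LaurentSeries L) ∈ FF L N) : D x = x := by
  apply (toM ι (G1 N q) N).injective
  rw [hD, compMer_of_mem_FF1 ι hσ x hx]

include hq hD in
theorem dia_uL1 (x : FG ι (G1 N q) N) {ω : DirichletCharacter L q}
    (h2 : ω (-1) = 1) (h3 : (x : LaurentSeries L) = uL ω) :
    D x = algebraMap L (FG ι (G1 N q) N) (ω (delq hqN ⟨σ, hσ⟩ : (ZMod q)ˣ)) * x := by
  apply (toM ι (G1 N q) N).injective
  rw [hD, compMer_uL1 ι hqN hq hσ h2 h3]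

variable [hst : GalSt ι (G1 N q) N] (s : L ≃ₐ[ℚ] L)

include hD in
theorem dia_gal_c1 (c : L) : D (galF ι (G1 N q) N s (algebraMap L (FG ι (G1 N q) N) c)) =
    galF ι (G1 N q) N s (D (algebraMap L (FG ι (G1 N q) N) c)) := by
  rw [galF_algebraMap, dia_algebraMap1 ι hD, dia_algebraMap1 ι hD, galF_algebraMap]

include hσ hD in
theorem dia_gal_FF1 (x : FG ι (G1 N q) N) (hx : (x : LaurentSeries L) ∈ FF L N) :
    D (galF ι (G1 N q) N s x) = galF ι (G1 N q) N s (D x) := by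
  rw [dia_FF1 ι hσ hD x hx]
  apply dia_FF1 ι hσ hD
  rw [coe_galF]
  exact coeffMap_mem_laurentBaseChange s hx

include hqN hq hσ hD in
theorem dia_gal_uL1 {ω : DirichletCharacter L q} (hω : ω (-1) = 1) (x : FG ι (G1 N q) N)
    (hx : (x : LaurentSeries L) = uL ω) :
    D (galF ι (G1 N q) N s x) = galF ι (G1 N q) N s (D x) := by
  have h1 : ((galF ι (G1 N q) N s x : FG ι (G1 N q) N) : LaurentSeries L) =
      uL (ω.ringHomComp (s : L →+* L)) := by
    rw [coe_galF, hx, coeffMap_uL]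
  have h2 : (ω.ringHomComp (s : L →+* L)) (-1) = 1 := by
    rw [MulChar.ringHomComp_apply, hω, map_one]
  have h3 := dia_uL1 ι hqN hq hσ hD x hω hx
  have h4 := dia_uL1 ι hqN hq hσ hD _ h2 h1
  rw [h4, h3, MulChar.ringHomComp_apply, map_mul, galF_algebraMap]
  rfl

include hqN hq hσ hD in
theorem dia_gal1 (f : FG ι (G1 N q) N) :
    D (galF ι (G1 N q) N s f) = galF ι (G1 N q) N s (D f) :=
  RingHom.congr_fun (fg_eq_of_gens1 ι hqN hq
    (D.comp (galF ι (G1 N q) N s : FG ι (G1 N q) N →+* FG ι (G1 N q) N))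
    ((galF ι (G1 N q) N s : FG ι (G1 N q) N →+* FG ι (G1 N q) N).comp D)
    (dia_gal_c1 ι hD s) (dia_gal_FF1 ι hσ hD s) (fun x _ hω hx =>
      dia_gal_uL1 ι hqN hq hσ hD s hω x hx)) f

end dia

include hqN hq in
/-- **diamond operators** -/
theorem exists_dia1 [GalSt ι (G1 N q) N] {σ : SL(2, ℤ)} (hσ : σ ∈ Gamma0 N) :
    ∃ dia : FG ι (G1 N q) N →+* FG ι (G1 N q) N,
      (∀ f, toM ι (G1 N q) N (dia f) = compMer σ (toM ι (G1 N q) N f)) ∧
      ∀ (s : L ≃ₐ[ℚ] L) (f : FG ι (G1 N q) N),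
        dia (galF ι (G1 N q) N s f) = galF ι (G1 N q) N s (dia f) := by
  obtain ⟨D, hD⟩ := exists_lift_of_range (toM ι (G1 N q) N) (compMer σ)
    (compMer_mem_range1 ι hqN hq hσ)
  exact ⟨D, hD, fun s f => dia_gal1 ι hqN hq hσ hD s f⟩

end Fermat.Agent.DS1
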