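import Fermat.Agent.LG.MFHMain
import Fermat.Agent.LG.TDataC
import Fermat.Agent.WOne.Family
import Mathlib.NumberTheory.DirichletCharacter.Orthogonality

/-!
# The group `±Γ₁(q) ∩ Γ₀(N)` and its modular functions over `ℂ`
-/

set_option autoImplicit false
set_option linter.unusedSectionVars false
set_option linter.style.haveILetI false

noncomputable section

open UpperHalfPlane Function ModularCurve Filter ModularForm AlgebraicCurve WithZero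
  CongruenceSubgroup IntermediateField
open scoped Manifold MatrixGroups Topology ModularForm

namespace Fermat.Agent.DS1

open Fermat.Agent.X0Places Fermat.Agent.TorsCmp Fermat.Agent.FunField Fermat.Agent.LGU
  Fermat.Agent.LG
open Function.Periodic (qParam)

section Group

/-- the lower right entry -/
def delq {N q : ℕ} (hqN : q ∣ N) : Gamma0 N →* (ZMod q)ˣ :=
  (Gamma0Map q).toHomUnits.comp (Subgroup.inclusion (gamma0_le_gamma0 hqN))

theorem coe_delq {N q : ℕ} (hqN : q ∣ N) (g : Gamma0 N) : ((delq hqN g : (ZMod q)ˣ) : ZMod q) =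
    (((g : SL(2, ℤ)) 1 1 : ℤ) : ZMod q) := rfl

/-- `{±1}` in `(ℤ/q)ˣ` -/
def pm (q : ℕ) : Subgroup (ZMod q)ˣ := Subgroup.zpowers (-1)

theorem mem_pm {q : ℕ} {d : (ZMod q)ˣ} : d ∈ pm q ↔ d = 1 ∨ d = -1 := by
  rw [pm, Subgroup.mem_zpowers_iff]
  constructor
  · rintro ⟨k, rfl⟩
    rcases Int.even_or_odd k with h | h
    · left; exact h.neg_one_zpow
    · right; exact h.neg_one_zpow
  · rintro (rfl | rfl)
    · exact ⟨0, zpow_zero _⟩
    · exact ⟨1, zpow_one _⟩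

/-- `±Γ₁(q) ∩ Γ₀(N)` -/
def G1 (N q : ℕ) : Subgroup SL(2, ℤ) :=
  Gamma0 N ⊓ ((pm q).comap (Gamma0Map q).toHomUnits).map (Gamma0 q).subtype

variable {N q : ℕ} (hqN : q ∣ N)

include hqN in
theorem mem_G1_iff {g : SL(2, ℤ)} :
    g ∈ G1 N q ↔ ∃ h : g ∈ Gamma0 N, delq hqN ⟨g, h⟩ ∈ pm q := by
  rw [G1, Subgroup.mem_inf, Subgroup.mem_map]
  constructor
  · rintro ⟨h1, ⟨g', hg'⟩, h2, rfl⟩
    exact ⟨h1, h2⟩
  · rintro ⟨h1, h2⟩
    exact ⟨h1, ⟨g, gamma0_le_gamma0 hqN h1⟩, h2, rfl⟩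

include hqN in
theorem mem_G1 {g : SL(2, ℤ)} : g ∈ G1 N q ↔ g ∈ Gamma0 N ∧
    (((g 1 1 : ℤ) : ZMod q) = 1 ∨ ((g 1 1 : ℤ) : ZMod q) = -1) := by
  rw [mem_G1_iff hqN]
  constructor
  · rintro ⟨h1, h2⟩
    rw [mem_pm, Units.ext_iff, Units.ext_iff, coe_delq] at h2
    exact ⟨h1, h2⟩
  · rintro ⟨h1, h2⟩
    refine ⟨h1, ?_⟩
    rw [mem_pm, Units.ext_iff, Units.ext_iff, coe_delq]
    exact h2

theorem G1_le_gamma0 : G1 N q ≤ Gamma0 N := inf_le_left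

theorem G1_eq : (G1 N q).subgroupOf (Gamma0 N) = (pm q).comap (delq hqN) := by
  ext g
  rw [Subgroup.mem_subgroupOf, mem_G1_iff hqN]
  exact ⟨fun ⟨_, h⟩ => h, fun h => ⟨g.2, h⟩⟩

theorem delq_surjective [NeZero N] : Surjective (delq hqN) := by
  intro d
  obtain ⟨d', hd'⟩ := ZMod.unitsMap_surjective hqN d
  obtain ⟨g, hg⟩ := WOne.exists_del_eq d'
  refine ⟨g, ?_⟩
  rw [← hd', ← hg]
  apply Units.ext
  rw [coe_delq, ZMod.unitsMap_val, WOne.coe_del, ZMod.cast_intCast hqN]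

/-- a lift of a unit -/
def lif [NeZero N] (d : (ZMod q)ˣ) : Gamma0 N := (delq_surjective hqN d).choose

theorem delq_lif [NeZero N] (d : (ZMod q)ˣ) : delq hqN (lif hqN d) = d :=
  (delq_surjective hqN d).choose_spec

include hqN in
theorem neg_one_mem : (-1 : SL(2, ℤ)) ∈ G1 N q := by
  rw [mem_G1 hqN]
  refine ⟨by rw [Gamma0_mem]; simp, Or.inr (by simp)⟩

include hqN in
theorem gamma_le_G1 : Gamma N ≤ G1 N q := by
  intro g hg
  rw [mem_G1 hqN]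
  rw [Gamma_mem] at hg
  refine ⟨by rw [Gamma0_mem]; exact hg.2.2.1, Or.inl ?_⟩
  have h2 : (((g 1 1 : ℤ) - 1 : ℤ) : ZMod N) = 0 := by push_cast; rw [hg.2.2.2, sub_self]
  rw [ZMod.intCast_zmod_eq_zero_iff_dvd] at h2
  have h3 : ((q : ℕ) : ℤ) ∣ (g 1 1 : ℤ) - 1 := (Int.natCast_dvd_natCast.2 hqN).trans h2
  rw [← ZMod.intCast_zmod_eq_zero_iff_dvd] at h3
  push_cast at h3
  exact sub_eq_zero.1 h3

include hqN in
theorem isCong_G1 : IsCong (G1 N q) N q where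
  le := G1_le_gamma0
  dvd := hqN
  mem := by
    intro γ hγ δ hδ h
    rw [mem_G1 hqN] at hγ ⊢
    have h1 : (((δ 1 1 : ℤ) - (γ 1 1 : ℤ) : ℤ) : ZMod q) = 0 := by
      rw [ZMod.intCast_zmod_eq_zero_iff_dvd]
      exact h
    have h2 : ((δ 1 1 : ℤ) : ZMod q) = ((γ 1 1 : ℤ) : ZMod q) := by
      push_cast at h1
      exact sub_eq_zero.1 h1
    exact ⟨hδ, by rw [h2]; exact hγ.2⟩

include hqN in
theorem conj_mem_G1 (g : SL(2, ℤ)) (hg : g ∈ Gamma0 N) (γ : SL(2, ℤ)) (hγ : γ ∈ G1 N q) :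
    g * γ * g⁻¹ ∈ G1 N q := by
  rw [mem_G1_iff hqN] at hγ ⊢
  obtain ⟨h1, h2⟩ := hγ
  refine ⟨mul_mem (mul_mem hg h1) (inv_mem hg), ?_⟩
  have h3 : (⟨g * γ * g⁻¹, mul_mem (mul_mem hg h1) (inv_mem hg)⟩ : Gamma0 N) =
      ⟨g, hg⟩ * ⟨γ, h1⟩ * (⟨g, hg⟩ : Gamma0 N)⁻¹ := rfl
  rw [h3, map_mul, map_mul, map_inv, mul_inv_cancel_comm]
  exact h2

include hqN in
theorem card_XG_G1 [NeZero N] [NeZero q] : Nat.card (XG (G1 N q)) * Nat.card (pm q) =
    q.totient * Nat.card (XG (Gamma0 N)) := by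
  have h1 : (G1 N q).relIndex (Gamma0 N) * (Gamma0 N).index = (G1 N q).index :=
    Subgroup.relIndex_mul_index G1_le_gamma0
  have h2 : (G1 N q).relIndex (Gamma0 N) = (pm q).index := by
    rw [Subgroup.relIndex, G1_eq hqN, Subgroup.index_comap_of_surjective _ (delq_surjective hqN)]
  have h3 : Nat.card (pm q) * (pm q).index = q.totient := by
    rw [Subgroup.card_mul_index, Nat.card_eq_fintype_card, ZMod.card_units_eq_totient]
  have h4 : Nat.card (XG (G1 N q)) = (pm q).index * Nat.card (XG (Gamma0 N)) := by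
    rw [← h2]
    exact h1.symm
  rw [h4, ← h3]
  ring

theorem card_pm (hq : 2 < q) : Nat.card (pm q) = 2 := by
  rw [pm, Nat.card_zpowers]
  refine orderOf_eq_prime (by simp) ?_
  intro h
  have h1 : (-1 : ZMod q) = 1 := by
    have := congrArg (Units.val) h
    simpa using this
  haveI : Fact (2 < q) := ⟨hq⟩
  exact ZMod.neg_one_ne_one h1

end Group

section Complex

variable {N q : ℕ} [NeZero N] [NeZero q] (hqN : q ∣ N)
variable {f : ℍ → ℂ} (hf : IsAnG (G1 N q) N f)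

variable (f) in
/-- the translate of `f` -/
def trd (d : (ZMod q)ˣ) (τ : ℍ) : ℂ := f ((lif hqN d : SL(2, ℤ)) • τ)

include hf in
theorem apply_smul' (g : Gamma0 N) (τ : ℍ) :
    f ((g : SL(2, ℤ)) • τ) = trd hqN f (delq hqN g) τ := by
  set d := delq hqN g with hd
  have h1 : delq hqN (g * (lif hqN d)⁻¹) = 1 := by
    rw [map_mul, map_inv, delq_lif, hd, mul_inv_cancel]
  have h0 : ((g * (lif hqN d)⁻¹ : Gamma0 N) : SL(2, ℤ)) ∈ G1 N q := by
    rw [mem_G1_iff hqN]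
    exact ⟨(g * (lif hqN d)⁻¹).2, by rw [h1]; exact one_mem _⟩
  have h2 := hf.inv _ h0 ((lif hqN d : SL(2, ℤ)) • τ)
  rw [trd, ← h2, ← mul_smul]
  congr 2
  rw [Subgroup.coe_mul, Subgroup.coe_inv, inv_mul_cancel_right]

variable (f) in
/-- the component of `f` of type `χ` -/
def cmpx (χ : DirichletCharacter ℂ q) (τ : ℍ) : ℂ :=
  ∑ d : (ZMod q)ˣ, χ ((d⁻¹ : (ZMod q)ˣ) : ZMod q) * trd hqN f d τ

include hf in
theorem cmpx_smul (χ : DirichletCharacter ℂ q) (g : Gamma0 N) (τ : ℍ) :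
    cmpx hqN f χ ((g : SL(2, ℤ)) • τ) = χ (delq hqN g : (ZMod q)ˣ) * cmpx hqN f χ τ := by
  rw [cmpx, cmpx, Finset.mul_sum]
  set c := delq hqN g with hc
  have h1 : ∀ d : (ZMod q)ˣ,
      trd hqN f d ((g : SL(2, ℤ)) • τ) = trd hqN f (d * c) τ := by
    intro d
    rw [trd, ← mul_smul, ← Subgroup.coe_mul, apply_smul' hqN hf]
    congr 1
    rw [map_mul, delq_lif]
  have h2 := Equiv.sum_comp (Equiv.mulRight c) (fun d : (ZMod q)ˣ =>
    χ (c : ZMod q) * (χ ((d⁻¹ : (ZMod q)ˣ) : ZMod q) * trd hqN f d τ))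
  rw [← h2]
  refine Finset.sum_congr rfl fun d _ => ?_
  rw [h1]
  show _ = χ (c : ZMod q) * (χ (((d * c)⁻¹ : (ZMod q)ˣ) : ZMod q) * trd hqN f (d * c) τ)
  rw [← mul_assoc, ← map_mul, ← Units.val_mul, mul_inv, mul_comm d⁻¹, mul_inv_cancel_left]

include hf in
theorem cmpx_odd (χ : DirichletCharacter ℂ q) (hχ : χ (-1) ≠ 1) : cmpx hqN f χ = 0 := by
  funext τ
  have h1 := cmpx_smul hqN hf χ ⟨-1, G1_le_gamma0 (neg_one_mem hqN)⟩ τ
  have h2 : ((delq hqN ⟨-1, G1_le_gamma0 (neg_one_mem hqN)⟩ : (ZMod q)ˣ) : ZMod q) = -1 := by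
    rw [coe_delq]; simp
  rw [h2] at h1
  have h3 : ((⟨-1, G1_le_gamma0 (neg_one_mem hqN)⟩ : Gamma0 N) : SL(2, ℤ)) • τ = τ := by
    show (-1 : SL(2, ℤ)) • τ = τ
    rw [ModularGroup.SL_neg_smul, one_smul]
  rw [h3] at h1
  have h4 : (χ (-1) - 1) * cmpx hqN f χ τ = 0 := by rw [sub_mul, ← h1]; ring
  exact (mul_eq_zero.1 h4).resolve_left (sub_ne_zero.2 hχ)

include hf in
theorem sum_cmpx (τ : ℍ) : ∑ χ : DirichletCharacter ℂ q, cmpx hqN f χ τ =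
    (q.totient : ℂ) * f τ := by
  classical
  simp only [cmpx]
  rw [Finset.sum_comm]
  have h0 : ∀ d : (ZMod q)ˣ, ∑ χ : DirichletCharacter ℂ q,
      χ ((d⁻¹ : (ZMod q)ˣ) : ZMod q) * trd hqN f d τ =
      (if d = 1 then (q.totient : ℂ) else 0) * trd hqN f d τ := by
    intro d
    rw [← Finset.sum_mul, DirichletCharacter.sum_characters_eq]
    congr 1
    have h1 : ((d⁻¹ : (ZMod q)ˣ) : ZMod q) = 1 ↔ d = 1 := by
      rw [Units.val_eq_one, inv_eq_one]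
    simp only [h1]
  rw [Finset.sum_congr rfl fun d _ => h0 d, Finset.sum_eq_single (1 : (ZMod q)ˣ)]
  · rw [if_pos rfl]
    have := apply_smul' hqN hf 1 τ
    rw [Subgroup.coe_one, one_smul, map_one] at this
    rw [this]
  · intro d _ hd
    rw [if_neg hd, zero_mul]
  · intro h
    exact absurd (Finset.mem_univ _) h

include hf in
theorem isAnG_cmpx (χ : DirichletCharacter ℂ q) : IsAnG (Gamma N) N (cmpx hqN f χ) := by
  have h1 : cmpx hqN f χ = ∑ d : (ZMod q)ˣ,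
      (fun _ => χ ((d⁻¹ : (ZMod q)ˣ) : ZMod q)) * trd hqN f d := by
    funext τ
    rw [Finset.sum_apply]
    rfl
  rw [h1]
  refine (AnFunG (Gamma N) N).sum_mem fun r _ => (AnFunG (Gamma N) N).mul_mem ?_ ?_
  · exact isAnG_const _ _ _
  · exact isAnG_comp (hf.mono (gamma_le_G1 hqN)) _

include hf in
/-- **the expansion of a modular function on `G1` is in the field generated by `FF` and the
`u χ`** -/
theorem mem_adjoin_of_isAnG' {U : DirichletCharacter ℂ q → ℍ → ℂ}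
    {u : DirichletCharacter ℂ q → LaurentSeries ℂ} {y : LaurentSeries ℂ}
    (hU : ∀ χ, χ (-1) = 1 → IsAnG (Gamma N) N (U χ))
    (hUχ : ∀ χ, χ (-1) = 1 → ∀ g : Gamma0 N, ∀ τ, U χ ((g : SL(2, ℤ)) • τ) =
      χ (delq hqN g : (ZMod q)ˣ) * U χ τ)
    (hu : ∀ χ, χ (-1) = 1 → HasLaurent 1 (U χ) (u χ)) (hu0 : ∀ χ, χ (-1) = 1 → u χ ≠ 0)
    (hy : HasLaurent 1 f y) :
    y ∈ adjoin ℂ ((FF ℂ N : Set (LaurentSeries ℂ)) ∪ {x | ∃ χ, χ (-1) = 1 ∧ x = u χ}) := by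
  classical
  have hinv : ∀ χ : DirichletCharacter ℂ q, χ (-1) = 1 → χ⁻¹ (-1) = 1 := by
    intro χ hχ
    have h1 : χ⁻¹ (-1) * χ (-1) = 1 := by
      rw [← MulChar.mul_apply, inv_mul_cancel, MulChar.one_apply (by simp)]
    rwa [hχ, mul_one] at h1
  have h1 : ∀ χ : DirichletCharacter ℂ q, χ (-1) = 1 → IsAn N (cmpx hqN f χ * U χ⁻¹) := by
    intro χ hχ
    have h2 : IsAnG (Gamma N) N (cmpx hqN f χ * U χ⁻¹) :=
      (isAnG_cmpx hqN hf χ).mul (hU _ (hinv χ hχ))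
    refine ⟨h2.hol, h2.exp, fun γ hγ τ => ?_⟩
    rw [Pi.mul_apply, Pi.mul_apply, cmpx_smul hqN hf χ ⟨γ, hγ⟩, hUχ _ (hinv χ hχ) ⟨γ, hγ⟩]
    have h3 : χ (delq hqN ⟨γ, hγ⟩ : (ZMod q)ˣ) * χ⁻¹ (delq hqN ⟨γ, hγ⟩ : (ZMod q)ˣ) = 1 := by
      rw [← MulChar.mul_apply, mul_inv_cancel, MulChar.one_apply_coe]
    linear_combination (cmpx hqN f χ τ * U χ⁻¹ τ) * h3
  have h2 : ∀ χ : DirichletCharacter ℂ q, ∃ z, (χ (-1) = 1 →
      z ∈ FF ℂ N ∧ HasLaurent 1 (cmpx hqN f χ * U χ⁻¹) z) := by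
    intro χ
    by_cases hχ : χ (-1) = 1
    · obtain ⟨z, hz⟩ := (h1 χ hχ).hasLaurent_one N
      exact ⟨z, fun _ => ⟨(h1 χ hχ).mem_FF N hz, hz⟩⟩
    · exact ⟨0, fun h => absurd h hχ⟩
  choose z hz using h2
  set K := adjoin ℂ ((FF ℂ N : Set (LaurentSeries ℂ)) ∪ {x | ∃ χ, χ (-1) = 1 ∧ x = u χ}) with hK
  set E : Finset (DirichletCharacter ℂ q) := Finset.univ.filter fun χ => χ (-1) = 1 with hE
  have hmem : ∀ χ, χ ∈ E ↔ χ (-1) = 1 := fun χ => by rw [hE, Finset.mem_filter]; simp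
  have hsum : ∀ τ, ∑ χ ∈ E, cmpx hqN f χ τ = (q.totient : ℂ) * f τ := by
    intro τ
    rw [← sum_cmpx hqN hf τ]
    refine Finset.sum_subset (Finset.subset_univ _) fun χ _ hχ => ?_
    rw [hmem] at hχ
    rw [cmpx_odd hqN hf χ hχ]
    rfl
  -- multiply by the product of all `U χ⁻¹`
  set P : ℍ → ℂ := ∏ χ ∈ E, U χ⁻¹ with hP
  set Pu : LaurentSeries ℂ := ∏ χ ∈ E, u χ⁻¹ with hPu
  have hprod : ∀ s ⊆ E, HasLaurent 1 (∏ χ ∈ s, U χ⁻¹) (∏ χ ∈ s, u χ⁻¹) := by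
    intro s
    induction s using Finset.induction_on with
    | empty =>
      intro _
      rw [Finset.prod_empty, Finset.prod_empty]
      have := HasLaurent.const (h := 1) (1 : ℂ)
      rwa [map_one] at this
    | insert a s ha ih =>
      intro hsub
      rw [Finset.prod_insert ha, Finset.prod_insert ha]
      exact (hu _ (hinv a ((hmem a).1 (hsub (Finset.mem_insert_self _ _))))).mul
        (ih fun x hx => hsub (Finset.mem_insert_of_mem hx))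
  have hPu0 : Pu ≠ 0 := Finset.prod_ne_zero_iff.2 fun χ hχ => hu0 _ (hinv χ ((hmem χ).1 hχ))
  have h3 : HasLaurent 1 ((fun _ => (q.totient : ℂ)) * f * P)
      (HahnSeries.C (q.totient : ℂ) * y * Pu) :=
    ((HasLaurent.const _).mul hy).mul (hprod E subset_rfl)
  have h4 : HasLaurent 1 (∑ χ ∈ E, cmpx hqN f χ * U χ⁻¹ * ∏ χ' ∈ E.erase χ, U χ'⁻¹)
      (∑ χ ∈ E, z χ * ∏ χ' ∈ E.erase χ, u χ'⁻¹) := by
    have h5 : ∀ t ⊆ E, HasLaurent 1 (∑ χ ∈ t, cmpx hqN f χ * U χ⁻¹ * ∏ χ' ∈ E.erase χ, U χ'⁻¹)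
      (∑ χ ∈ t, z χ * ∏ χ' ∈ E.erase χ, u χ'⁻¹) := by
      intro t
      induction t using Finset.induction_on with
      | empty =>
        intro _
        rw [Finset.sum_empty, Finset.sum_empty]
        exact HasLaurent.zero 1
      | insert a t ha ih =>
        intro hsub
        rw [Finset.sum_insert ha, Finset.sum_insert ha]
        exact (((hz a ((hmem a).1 (hsub (Finset.mem_insert_self _ _)))).2).mul
          (hprod _ (Finset.erase_subset _ _))).add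
          (ih fun x hx => hsub (Finset.mem_insert_of_mem hx))
    exact h5 _ subset_rfl
  have h5 : (∑ χ ∈ E, cmpx hqN f χ * U χ⁻¹ * ∏ χ' ∈ E.erase χ, U χ'⁻¹) =
      (fun _ => (q.totient : ℂ)) * f * P := by
    funext τ
    rw [Finset.sum_apply, Pi.mul_apply, Pi.mul_apply, ← hsum τ, Finset.sum_mul]
    refine Finset.sum_congr rfl fun χ hχ => ?_
    rw [hP, ← Finset.mul_prod_erase E _ hχ]
    simp only [Pi.mul_apply]
    ring
  rw [h5] at h4
  have h6 := h3.unique one_pos h4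
  have huK : ∀ χ ∈ E, u χ⁻¹ ∈ K := fun χ hχ =>
    subset_adjoin _ _ (Or.inr ⟨_, hinv χ ((hmem χ).1 hχ), rfl⟩)
  have hzK : ∀ χ ∈ E, z χ ∈ K := fun χ hχ =>
    subset_adjoin _ _ (Or.inl (hz χ ((hmem χ).1 hχ)).1)
  have hC : (HahnSeries.C (q.totient : ℂ) : LaurentSeries ℂ) ≠ 0 := by
    rw [Ne, ← map_zero (HahnSeries.C (Γ := ℤ) (R := ℂ)), HahnSeries.C_injective.eq_iff]
    have := Nat.totient_pos.2 (Nat.pos_of_ne_zero (NeZero.ne q))
    exact_mod_cast this.ne'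
  have h7 : y = (∑ χ ∈ E, z χ * ∏ χ' ∈ E.erase χ, u χ'⁻¹) /
      (HahnSeries.C (q.totient : ℂ) * Pu) := by
    rw [eq_div_iff (mul_ne_zero hC hPu0), ← h6]
    ring
  rw [h7]
  refine div_mem (sum_mem fun χ hχ => mul_mem (hzK χ hχ) (prod_mem fun χ' hχ' =>
    huK χ' (Finset.erase_subset _ _ hχ'))) (mul_mem ?_ (prod_mem fun χ hχ => huK χ hχ))
  have : (HahnSeries.C (q.totient : ℂ) : LaurentSeries ℂ) =
      algebraMap ℂ (LaurentSeries ℂ) (q.totient : ℂ) := by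
    rw [algebraMap_laurentSeries_eq_single, HahnSeries.C_apply]
  rw [this]
  exact K.algebraMap_mem _

end Complex

end Fermat.Agent.DS1
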