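import Fermat.Agent.DS1.Fld

/-!
# `±Γ₁(q) ∩ Γ₀(N)` satisfies the hypotheses of `MF`
-/

set_option autoImplicit false
set_option linter.unusedSectionVars false
set_option linter.style.haveILetI false

noncomputable section

open UpperHalfPlane Function ModularCurve Filter ModularForm AlgebraicCurve WithZero
  CongruenceSubgroup IntermediateField
open scoped Manifold MatrixGroups Topology ModularForm

namespace Fermat.Agent.DS1

open Fermat.Agent.X0Places Fermat.Agent.TorsCmp Fermat.Agent.FunField Fermat.Agent.LGU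
  Fermat.Agent.LG

variable {L : Type*} [Field L] [Algebra ℚ L] [IsAlgClosed L] (ι : L →+* ℂ) {N : ℕ} [NeZero N]
  {q : ℕ} (hqN : q ∣ N) (hq : 2 < q)

include hqN hq in
theorem card_XG_eq : Nat.card (XG (G1 N q)) =
    (haveI : NeZero q := ⟨by omega⟩; (evn L q).card) * Nat.card (XG (Gamma0 N)) := by
  haveI : NeZero q := ⟨by omega⟩
  haveI : CharZero L := algebraRat.charZero L
  have h1 := card_XG_G1 (N := N) hqN
  have h2 := two_mul_card_evn (L := L) (q := q) hq
  rw [card_pm hq, ← h2] at h1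
  have h3 : 2 * Nat.card (XG (G1 N q)) = 2 * ((evn L q).card * Nat.card (XG (Gamma0 N))) := by
    linarith
  exact Nat.eq_of_mul_eq_mul_left two_pos h3

include hqN hq in
theorem deg_G1 :
    FiniteDimensional L⟮jG ι (G1 N q) N⟯ (FG ι (G1 N q) N) ∧
      Module.finrank L⟮jG ι (G1 N q) N⟯ (FG ι (G1 N q) N) = Nat.card (XG (G1 N q)) := by
  haveI : NeZero q := ⟨by omega⟩
  have hq1 : 1 < q := by omega
  have h1 := finrank_adjoin_eq_relfinrank (FG ι (G1 N q) N) (jG ι (G1 N q) N)
  have h2 := finrank_adjoin_eq_relfinrank (FF L N) (jF L N)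
  rw [finrank_jF] at h2
  have h3 : ((jG ι (G1 N q) N : FG ι (G1 N q) N) : LaurentSeries L) = (jF L N : FF L N) := rfl
  rw [h3] at h1
  have h4 : relfinrank (adjoin L {((jF L N : FF L N) : LaurentSeries L)}) (FF L N) *
      relfinrank (FF L N) (S1 L N q) =
      relfinrank (adjoin L {((jF L N : FF L N) : LaurentSeries L)}) (S1 L N q) :=
    relfinrank_mul_relfinrank (by
      rw [adjoin_simple_le_iff]
      exact (jF L N).2) FF_le_S1
  obtain ⟨h5, h6⟩ := relfinrank_S1 ι hqN hq1 (L := L)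
  have h7 : Module.finrank L⟮jG ι (G1 N q) N⟯ (FG ι (G1 N q) N) =
      Nat.card (XN N) * relfinrank (FF L N) (S1 L N q) := by
    rw [h2, h4]
    exact h1.trans (congrArg (relfinrank _) (FG_G1 ι hqN hq1))
  have hX : 0 < Nat.card (XN N) := by
    have := finite_XN N
    have : Nonempty (XN N) := ⟨((1 : SL(2, ℤ)) : XN N)⟩
    exact Nat.card_pos
  have h8 : FiniteDimensional L⟮jG ι (G1 N q) N⟯ (FG ι (G1 N q) N) := by
    apply FiniteDimensional.of_finrank_pos
    rw [h7]
    exact Nat.mul_pos hX h5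
  refine ⟨h8, le_antisymm ?_ (card_XG_le (sep_G1 ι hqN hq1))⟩
  rw [h7, card_XG_eq (L := L) hqN hq, mul_comm]
  exact Nat.mul_le_mul_right _ h6

include hqN hq in
/-- **`MF` for `±Γ₁(q) ∩ Γ₀(N)`.** -/
theorem mf_G1 : MF ι (G1 N q) N where
  fin := by
    haveI : NeZero q := ⟨by omega⟩
    apply Nat.finite_of_card_ne_zero
    rw [card_XG_eq (L := L) hqN hq]
    have h2 := finite_XN N
    have h3 : Nonempty (XN N) := ⟨((1 : SL(2, ℤ)) : XN N)⟩
    exact mul_ne_zero (card_evn_pos L q).ne' Nat.card_pos.ne'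
  gam := gamma_le_G1 hqN
  neg := neg_one_mem hqN
  sep := by
    haveI : NeZero q := ⟨by omega⟩
    exact sep_G1 ι hqN (by omega)
  isFF := by
    refine ⟨⟨jG ι (G1 N q) N, ?_, (deg_G1 ι hqN hq).1⟩⟩
    have h := (embC ι (Gamma0 N) N).transcendental_t
    rw [embC_t] at h
    intro h1
    apply h
    refine IsAlgebraic.inv ?_
    have h2 : IsAlgebraic L ((jG ι (G1 N q) N : FG ι (G1 N q) N) : LaurentSeries L) :=
      IsAlgebraic.algebraMap (A := LaurentSeries L) h1
    exact (isAlgebraic_algHom_iff (FG ι (Gamma0 N) N).val Subtype.val_injective).1 h2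
  deg := (deg_G1 ι hqN hq).2

end Fermat.Agent.DS1
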