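import Fermat.Agent.DS1.Gal
import Fermat.Agent.DSF.Frob
import Fermat.Agent.LG.BC

/-!
# Existence of representatives, elliptic elements, change of level
-/

set_option autoImplicit false
set_option linter.unusedSectionVars false
set_option linter.style.haveILetI false

noncomputable section

open UpperHalfPlane Function ModularCurve Filter ModularForm AlgebraicCurve WithZero
  CongruenceSubgroup IntermediateField
open scoped Manifold MatrixGroups Topology ModularForm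

namespace Fermat.Agent.DS1

open Fermat.Agent.X0Places Fermat.Agent.TorsCmp Fermat.Agent.FunField Fermat.Agent.LGU
open Fermat.Agent.Igusa Fermat.Agent.LGRes Fermat.Agent.LG
open Fermat.Agent.HeckeHom (HData)

section RepEx

variable {L : Type*} [Field L] [Algebra ℚ L] [IsAlgClosed L] (ι : L →+* ℂ) {N : ℕ} [NeZero N]
  {q : ℕ} (hqN : q ∣ N) (hq : 2 < q)

include hqN hq in
/-- every class in `PE (G1 N q) (ℤ/n)` is represented by a function -/
theorem repEx_G1 : RepEx ι (G1 N q) N := by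
  haveI : NeZero q := ⟨by omega⟩
  haveI h1 := mf_G1 ι hqN hq
  haveI h2 := mf_G1 (RingHom.id ℂ) hqN hq
  exact repEx_of_gen ι (G1 N q) N (FG_G1_gen ι hqN (by omega))

end RepEx

/-! ### operators on `PE` -/

theorem zmod_twelve_torsionFree {n : ℕ} (hn : Nat.Coprime 12 n) (a : ZMod n)
    (h : (12 : ℕ) • a = 0) : a = 0 := by
  have h1 : IsUnit ((12 : ℕ) : ZMod n) := by
    rw [ZMod.isUnit_iff_coprime]
    exact hn
  rw [nsmul_eq_mul] at h
  exact (h1.mul_right_eq_zero).1 h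

theorem hom_mem_PE12 {Γ : Subgroup SL(2, ℤ)} {A : Type*} [AddCommGroup A]
    (hA : ∀ a : A, (12 : ℕ) • a = 0 → a = 0) (H : HData Γ Γ) {x : Additive Γ →+ A}
    (hx : x ∈ PE Γ A) : H.hom A x ∈ PE Γ A :=
  Fermat.Agent.DSF.mem_PE_of_parabolic12 hA (H.isParabolicHom_hom hx.1)

/-- Hecke operator on `PE` -/
def TP12 {Γ : Subgroup SL(2, ℤ)} {A : Type*} [AddCommGroup A]
    (hA : ∀ a : A, (12 : ℕ) • a = 0 → a = 0) (H : HData Γ Γ) : PE Γ A →+ PE Γ A :=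
  AddMonoidHom.mk' (fun x => ⟨H.hom A x, hom_mem_PE12 hA H x.2⟩) (by
    intro x y
    exact Subtype.ext (map_add (H.hom A) _ _))

@[simp] theorem coe_TP12 {Γ : Subgroup SL(2, ℤ)} {A : Type*} [AddCommGroup A]
    (hA : ∀ a : A, (12 : ℕ) • a = 0 → a = 0) (H : HData Γ Γ) (x : PE Γ A) :
    (TP12 hA H x : Additive Γ →+ A) = H.hom A x := rfl

@[simp] theorem coe_CP {Γ : Subgroup SL(2, ℤ)} {A : Type*} [AddCommGroup A]
    (σ : SL(2, ℤ)) (hσ : ∀ γ ∈ Γ, σ * γ * σ⁻¹ ∈ Γ) (x : PE Γ A) :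
    (CP σ hσ x : Additive Γ →+ A) = conjH σ hσ (x : Additive Γ →+ A) := rfl

/-! ### the operators commute with Galois -/

section Comm

variable {L : Type*} [Field L] [Algebra ℚ L] [CharZero L] [IsAlgClosed L]
  {ι : L →+* ℂ} {N : ℕ} [NeZero N] {q : ℕ} (hqN : q ∣ N) (hq : 2 < q)
  [MF ι (G1 N q) N] [GalSt ι (G1 N q) N] [RepEx ι (G1 N q) N] {n : ℕ} [NeZero n]

include hqN hq in
/-- diamonds commute with Galois -/
theorem galH_CP_G1 (Φ : L ≃ₐ[ℚ] L) (g : SL(2, ℤ)) (hg : g ∈ Gamma0 N)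
    (x : PE (G1 N q) (ZMod n)) :
    galH ι N n Φ (CP g (conj_mem_G1 hqN g hg) x) =
      CP g (conj_mem_G1 hqN g hg) (galH ι N n Φ x) := by
  haveI : NeZero q := ⟨by omega⟩
  obtain ⟨dia, h1, h2⟩ := exists_dia1 ι hqN (by omega) hg
  exact galH_comm (N := N) (CP g (conj_mem_G1 hqN g hg)) dia
    (fun x f hf => rep_dia g (conj_mem_G1 hqN g hg) h1 hf) (h2 Φ) x

include hq in
/-- Hecke operators commute with Galois -/
theorem galH_TP_G1 (h12 : ∀ a : ZMod n, (12 : ℕ) • a = 0 → a = 0) {l : ℕ} [hl : Fact l.Prime]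
    (hlN : ¬ l ∣ N) {σ : SL(2, ℤ)} (hσ : σ ∈ Gamma0 N) (hql : IsCoprime (q : ℤ) (l : ℤ))
    (hσl : (q : ℤ) ∣ σ 1 1 - l) (Φ : L ≃ₐ[ℚ] L) (x : PE (G1 N q) (ZMod n)) :
    galH ι N n Φ (TP12 h12 (tdataG (isCong_G1 hqN) hlN σ hσ hql hσl).H x) =
      TP12 h12 (tdataG (isCong_G1 hqN) hlN σ hσ hql hσl).H (galH ι N n Φ x) := by
  haveI : NeZero q := ⟨by omega⟩
  haveI : NeZero l := ⟨hl.out.ne_zero⟩
  obtain ⟨dia, h1, h2⟩ := exists_dia1 ι hqN (by omega) hσ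
  obtain ⟨ζ, hζ⟩ := exists_zeta ι l
  exact (hopG (isCong_G1 hqN) hlN hσ hql hσl hζ dia h1 (conj_mem_G1 hqN σ hσ)).galH_T (h2 Φ)
    (TP12 h12 (tdataG (isCong_G1 hqN) hlN σ hσ hql hσl).H) (fun x => rfl) x

end Comm

/-! ### change of level -/

section Level

theorem isAnG_change {Γ Γ' : Subgroup SL(2, ℤ)} (hΓ : Γ' ≤ Γ) {N N' : ℕ} [NeZero N] [NeZero N']
    (hN : N ∣ N') {f : ℍ → ℂ} (hf : IsAnG Γ N f) : IsAnG Γ' N' f :=
  isAnG_of_width hN hf.hol hf.exp fun γ hγ => hf.inv γ (hΓ hγ)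

variable {L : Type*} [Field L] {ι : L →+* ℂ} {Γ Γ' : Subgroup SL(2, ℤ)} (hΓ : Γ' ≤ Γ)
  {N N' : ℕ} [NeZero N] [NeZero N'] (hN : N ∣ N')

include hΓ hN in
theorem anR_change : AnR ι Γ N ≤ AnR ι Γ' N' := by
  rintro a ⟨f, hf, hf'⟩
  exact ⟨f, isAnG_change hΓ hN hf, hf'⟩

include hΓ hN in
theorem FG_change : FG ι Γ N ≤ FG ι Γ' N' := by
  rintro x ⟨a, ha, b, hb, hb0, hx⟩
  exact ⟨a, anR_change hΓ hN ha, b, anR_change hΓ hN hb, hb0, hx⟩

/-- change of level: the inclusion of `FG ι Γ N` in `FG ι Γ' N'` -/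
def inclW : FG ι Γ N →ₐ[L] FG ι Γ' N' := IntermediateField.inclusion (FG_change hΓ hN)

@[simp] theorem coe_inclW (x : FG ι Γ N) :
    ((inclW hΓ hN x : FG ι Γ' N') : LaurentSeries L) = x := rfl

theorem coe_algebraMap_anR (a : AnR ι Γ N) :
    ((algebraMap (AnR ι Γ N) (FG ι Γ N) a : FG ι Γ N) : LaurentSeries L) = (a : LaurentSeries L) :=
  rfl

theorem toM_inclW_of_mem (a : AnR ι Γ N) :
    toM ι Γ' N' (inclW hΓ hN (algebraMap (AnR ι Γ N) (FG ι Γ N) a)) =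
      toM ι Γ N (algebraMap (AnR ι Γ N) (FG ι Γ N) a) := by
  rw [toM_coe]
  apply toM_of_mem
  · rw [LG.coe_anHom]
    exact isAnG_change hΓ hN (LG.isAnG_anFn a)
  · rw [LG.coe_anHom, coe_inclW, coe_algebraMap_anR]
    exact LG.hasLaurent_anFn a

theorem toM_inclW (x : FG ι Γ N) : toM ι Γ' N' (inclW hΓ hN x) = toM ι Γ N x := by
  have h1 : (toM ι Γ' N').comp ((inclW hΓ hN : FG ι Γ N →ₐ[L] FG ι Γ' N') :
      FG ι Γ N →+* FG ι Γ' N') = toM ι Γ N :=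
    fg_ringHom_ext fun a => toM_inclW_of_mem hΓ hN a
  exact RingHom.congr_fun h1 x

/-- restriction of a homomorphism to a subgroup -/
def resW (A : Type*) [AddCommGroup A] : (Additive Γ →+ A) →+ (Additive Γ' →+ A) :=
  AddMonoidHom.mk' (fun x => x.comp (MonoidHom.toAdditive (Subgroup.inclusion hΓ))) (by
    intro x y
    rfl)

theorem resW_apply {A : Type*} [AddCommGroup A] (x : Additive Γ →+ A) :
    resW hΓ A x = x.comp (MonoidHom.toAdditive (Subgroup.inclusion hΓ)) := rfl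

theorem resW_mem_PE {A : Type*} [AddCommGroup A] {x : Additive Γ →+ A} (hx : x ∈ PE Γ A) :
    resW hΓ A x ∈ PE Γ' A :=
  ⟨fun γ h => hx.1 (Subgroup.inclusion hΓ γ) h, fun γ τ h => hx.2 (Subgroup.inclusion hΓ γ) τ h⟩

theorem rep_inclW {n : ℕ} {x : Additive Γ →+ ZMod n} {f : FG ι Γ N} (h : Rep ι Γ N n x f) :
    Rep ι Γ' N' n (resW hΓ (ZMod n) x) (inclW hΓ hN f) := by
  obtain ⟨hf, G, hG, hGx⟩ := h
  refine ⟨?_, G, ?_, fun γ => ?_⟩
  · rwa [map_ne_zero]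
  · rw [hG, toM_inclW]
  · exact hGx (Subgroup.inclusion hΓ γ)

include hN in
theorem TR_inclW {A : ValuationSubring L} {κ : Type*} [Field κ] {π : A →+* κ} {n : ℕ}
    {x : Additive Γ →+ ZMod n} (h : TR A π ι N n x) :
    TR A π ι N' n (resW hΓ (ZMod n) x) := by
  obtain ⟨f, hf, hr⟩ := h
  exact ⟨inclW hΓ hN f, rep_inclW hΓ hN hf, hr⟩

include hN in
/-- restriction commutes with the Galois action -/
theorem galH_resW [Algebra ℚ L] [IsAlgClosed L] [MF ι Γ N] [MF ι Γ' N'] [GalSt ι Γ N]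
    [GalSt ι Γ' N'] [RepEx ι Γ N] [RepEx ι Γ' N'] {n : ℕ} [NeZero n] (σ : L ≃ₐ[ℚ] L)
    (x : PE Γ (ZMod n)) :
    (galH ι N' n σ (⟨resW hΓ (ZMod n) x, resW_mem_PE hΓ x.2⟩ : PE Γ' (ZMod n)) :
      Additive Γ' →+ ZMod n) = resW hΓ (ZMod n) (galH ι N n σ x) := by
  have h1 := galH_comm (ι := ι) (N := N) (N' := N') (n := n) (n' := n)
    (fun x : PE Γ (ZMod n) => (⟨resW hΓ (ZMod n) x, resW_mem_PE hΓ x.2⟩ : PE Γ' (ZMod n)))
    (inclW hΓ hN) (fun x f hf => rep_inclW hΓ hN hf) (σ := σ) (fun f => rfl) x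
  exact congrArg Subtype.val h1

end Level

/-! ### the groups `G1` for varying levels -/

theorem G1_mono {N N' q q' : ℕ} (hqN : q ∣ N) (hqN' : q' ∣ N') (hN : N ∣ N') (hq : q ∣ q') :
    G1 N' q' ≤ G1 N q := by
  intro g hg
  rw [mem_G1 hqN'] at hg
  rw [mem_G1 hqN]
  obtain ⟨h1, h2⟩ := hg
  refine ⟨gamma0_le_gamma0 hN h1, ?_⟩
  rcases h2 with h2 | h2
  · left
    have h3 := congrArg (ZMod.castHom hq (ZMod q)) h2
    rwa [map_intCast, map_one] at h3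
  · right
    have h3 := congrArg (ZMod.castHom hq (ZMod q)) h2
    rwa [map_intCast, map_neg, map_one] at h3

end Fermat.Agent.DS1
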